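import Mathlib
import Fermat.Prelude.Def_FormalHecke_Eigensystem

/-!
# Formal Hecke eigensystems with prescribed prime values (S46)
-/

set_option autoImplicit false

namespace Fermat.Agent.H23.LT

variable {R S : Type*} [CommRing R] [CommRing S]

/-- the local recursion -/
def U (e t : R) : ℕ → R
  | 0 => 1
  | 1 => t
  | (k + 2) => t * U e t (k + 1) - e * U e t k

@[simp] theorem U_zero (e t : R) : U e t 0 = 1 := rfl
@[simp] theorem U_one (e t : R) : U e t 1 = t := rfl
theorem U_add_two (e t : R) (k : ℕ) : U e t (k + 2) = t * U e t (k + 1) - e * U e t k := rfl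

theorem map_U (φ : R →+* S) (e t : R) (k : ℕ) : φ (U e t k) = U (φ e) (φ t) k := by
  induction k using Nat.strong_induction_on with
  | _ k ih =>
    match k with
    | 0 => simp
    | 1 => simp
    | (k + 2) =>
      rw [U_add_two, U_add_two, map_sub, map_mul, map_mul, ih (k + 1) (by omega), ih k (by omega)]

/-- the eigensystem with given prime values -/
noncomputable def A (e t : ℕ → R) (n : ℕ) : R :=
  if n = 0 then 0 else n.factorization.prod fun p k => U (e p) (t p) k

theorem A_zero (e t : ℕ → R) : A e t 0 = 0 := by simp [A]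

theorem A_one (e t : ℕ → R) : A e t 1 = 1 := by simp [A]

theorem map_A (φ : R →+* S) (e t : ℕ → R) (n : ℕ) :
    φ (A e t n) = A (fun p => φ (e p)) (fun p => φ (t p)) n := by
  unfold A
  split_ifs with h
  · exact map_zero φ
  · rw [Finsupp.prod, Finsupp.prod, map_prod]
    exact Finset.prod_congr rfl fun p _ => map_U φ _ _ _

theorem A_congr {e t e' t' : ℕ → R} (h : ∀ p : ℕ, p.Prime → e p = e' p ∧ t p = t' p) (n : ℕ) :
    A e t n = A e' t' n := by
  unfold A
  split_ifs with hn
  · rfl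
  · rw [Finsupp.prod, Finsupp.prod]
    refine Finset.prod_congr rfl fun p hp => ?_
    have hp' : p.Prime := Nat.prime_of_mem_primeFactors (by simpa using hp)
    rw [(h p hp').1, (h p hp').2]

theorem A_mul {m n : ℕ} (e t : ℕ → R) (h : m.Coprime n) :
    A e t (m * n) = A e t m * A e t n := by
  by_cases hm : m = 0
  · subst hm
    rw [zero_mul, A_zero, zero_mul]
  by_cases hn : n = 0
  · subst hn
    rw [mul_zero, A_zero, mul_zero]
  rw [A, A, A, if_neg hm, if_neg hn, if_neg (mul_ne_zero hm hn),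
    Nat.factorization_mul_of_coprime h]
  exact Finsupp.prod_add_index_of_disjoint h.disjoint_primeFactors _

theorem A_pow {p : ℕ} (hp : p.Prime) (e t : ℕ → R) (k : ℕ) :
    A e t (p ^ k) = U (e p) (t p) k := by
  rw [A, if_neg (pow_ne_zero _ hp.ne_zero), hp.factorization_pow, Finsupp.prod_single_index]
  exact U_zero _ _

theorem A_prime {p : ℕ} (hp : p.Prime) (e t : ℕ → R) : A e t p = t p := by
  have h := A_pow hp e t 1
  rwa [pow_one, U_one] at h

/-- uniqueness -/
theorem eq_A {c : ℕ → R} {e t : ℕ → R} (h0 : c 0 = 0) (h1 : c 1 = 1)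
    (hmul : ∀ m n : ℕ, m.Coprime n → c (m * n) = c m * c n)
    (ht : ∀ p : ℕ, p.Prime → c p = t p)
    (hrec : ∀ p r : ℕ, p.Prime → c (p ^ (r + 2)) = c p * c (p ^ (r + 1)) - e p * c (p ^ r))
    (n : ℕ) : c n = A e t n := by
  have hpow : ∀ (p : ℕ), p.Prime → ∀ k : ℕ, c (p ^ k) = U (e p) (t p) k := by
    intro p hp k
    induction k using Nat.strong_induction_on with
    | _ k ih =>
      match k with
      | 0 => rw [pow_zero, h1, U_zero]
      | 1 => rw [pow_one, U_one, ht p hp]
      | (k + 2) =>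
        rw [hrec p k hp, ih (k + 1) (by omega), ih k (by omega), U_add_two, ht p hp]
  by_cases hn : n = 0
  · rw [hn, h0, A_zero]
  · rw [A, if_neg hn, Nat.multiplicative_factorization c hmul h1 hn, Finsupp.prod, Finsupp.prod]
    refine Finset.prod_congr rfl fun p hp => ?_
    exact hpow p (Nat.prime_of_mem_primeFactors (by simpa using hp)) _

theorem A_isEigensystem (e t : ℕ → R) : FormalHecke.IsEigensystem e (A e t) := by
  refine ⟨A_one e t, fun ℓ hℓ n => ?_⟩
  by_cases hn : n = 0
  · subst hn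
    simp [A_zero]
  obtain ⟨k, m, hm, rfl⟩ := Nat.exists_eq_pow_mul_and_not_dvd hn ℓ hℓ.ne_one
  have hcop : ∀ j : ℕ, (ℓ ^ j).Coprime m := fun j =>
    Nat.Coprime.pow_left j ((Nat.Prime.coprime_iff_not_dvd hℓ).mpr hm)
  rw [← mul_assoc, ← pow_succ', A_mul e t (hcop (k + 1)), A_mul e t (hcop k), A_pow hℓ, A_pow hℓ,
    A_prime hℓ]
  match k with
  | 0 =>
    have hnd : ¬ ℓ ∣ ℓ ^ 0 * m := by rwa [pow_zero, one_mul]
    rw [if_neg hnd]
    simp
  | (k + 1) =>
    have hd : ℓ ∣ ℓ ^ (k + 1) * m := (dvd_pow_self ℓ (Nat.succ_ne_zero k)).mul_right m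
    have hdiv : ℓ ^ (k + 1) * m / ℓ = ℓ ^ k * m := by
      rw [pow_succ', mul_assoc, Nat.mul_div_cancel_left _ hℓ.pos]
    rw [if_pos hd, hdiv, A_mul e t (hcop k), A_pow hℓ, U_add_two]
    ring

end Fermat.Agent.H23.LT
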