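import Mathlib
import Fermat.Agent.H23.LT.Formal
import Fermat.Agent.AL.Extended
import Fermat.Agent.IntStr.Main
import Fermat.Prelude.Def_CuspForm_IntegralLattice
import Fermat.Prelude.Def_WeierstrassCurve_Mlc1RowStatement

/-!
# S46 from the modularity of exact conductor level
-/

set_option autoImplicit false

namespace Fermat.Agent.H23.LT

open CongruenceSubgroup ModularFormClass EisensteinWeightOne
open Fermat.Agent

/-- depletion at a prime dividing the level -/
theorem dep_one {L p : ℕ} [NeZero L] (hp : p.Prime) (hpL : p ∣ L) [NeZero (L * p)]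
    (f : CuspForm (Gamma0 L) 2) : ∃ f' : CuspForm (Gamma0 (L * p)) 2,
      ∀ n, qCoeff f' n = if p ∣ n then 0 else qCoeff f n := by
  have h1 : L * 1 ∣ L * p := by rw [mul_one]; exact dvd_mul_right _ _
  refine ⟨AL.degen one_pos h1 2 f - AL.degen hp.pos dvd_rfl 2
    (CuspForm.heckeULin 2 hpL f), fun n => ?_⟩
  rw [AL.qCoeff_sub, AL.qCoeff_degen, AL.qCoeff_degen, if_pos (one_dvd n), Nat.div_one,
    H22.qCoeff_heckeULin, ModularForm.coeffHeckeU_apply]
  split_ifs with hd
  · rw [Nat.div_mul_cancel hd, sub_self]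
  · rw [sub_zero]

theorem dep_list {L : ℕ} [NeZero L] (f : CuspForm (Gamma0 L) 2) (l : List ℕ)
    (hl : ∀ p ∈ l, p.Prime ∧ p ∣ L) : ∀ [NeZero (L * l.prod)],
    ∃ f' : CuspForm (Gamma0 (L * l.prod)) 2,
      ∀ n, qCoeff f' n = if ∀ p ∈ l, ¬ p ∣ n then qCoeff f n else 0 := by
  induction l with
  | nil =>
    intro _
    have h : L * 1 ∣ L * ([] : List ℕ).prod := by simp
    refine ⟨AL.degen one_pos h 2 f, fun n => ?_⟩
    rw [AL.qCoeff_degen, if_pos (one_dvd n), Nat.div_one]
    simp
  | cons p l ih =>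
    intro hne0
    have hp := hl p (by simp)
    have hne : NeZero (L * l.prod) := ⟨by
      have h2 := NeZero.ne (L * (p :: l).prod)
      rw [List.prod_cons] at h2
      intro h3
      apply h2
      rw [mul_left_comm, h3, mul_zero]⟩
    obtain ⟨g, hg⟩ := ih (fun q hq => hl q (by simp [hq]))
    have heq : L * (p :: l).prod = L * l.prod * p := by
      rw [List.prod_cons]
      ring
    have hne2 : NeZero (L * l.prod * p) := heq ▸ hne0
    obtain ⟨g', hg'⟩ := dep_one hp.1 (hp.2.mul_right l.prod) g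
    have key : ∃ f' : CuspForm (Gamma0 (L * l.prod * p)) 2,
        ∀ n, qCoeff f' n = if ∀ q ∈ (p :: l), ¬ q ∣ n then qCoeff f n else 0 := by
      refine ⟨g', fun n => ?_⟩
      rw [hg', hg]
      by_cases hd : p ∣ n
      · simp [hd]
      · simp [hd]
    rw [heq]
    exact key

/-- depletion at all primes dividing a squarefree level -/
theorem exists_dep {N : ℕ} [NeZero N] [NeZero (N * N)] (hsq : Squarefree N)
    (f : CuspForm (Gamma0 N) 2) :
    ∃ f' : CuspForm (Gamma0 (N * N)) 2,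
      ∀ n, qCoeff f' n = if n.Coprime N then qCoeff f n else 0 := by
  have hprod : N.primeFactors.toList.prod = N := by
    rw [Finset.prod_toList]
    exact Nat.prod_primeFactors_of_squarefree hsq
  have hl : ∀ p ∈ N.primeFactors.toList, p.Prime ∧ p ∣ N := fun p hp => by
    rw [Finset.mem_toList, Nat.mem_primeFactors] at hp
    exact ⟨hp.1, hp.2.1⟩
  have key : ∀ M : ℕ, N.primeFactors.toList.prod = M → ∀ [NeZero (N * M)],
      ∃ f' : CuspForm (Gamma0 (N * M)) 2,
      ∀ n, qCoeff f' n = if n.Coprime N then qCoeff f n else 0 := by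
    rintro M rfl _
    obtain ⟨f', hf'⟩ := dep_list f N.primeFactors.toList hl
    refine ⟨f', fun n => ?_⟩
    rw [hf']
    have hiff : (∀ p ∈ N.primeFactors.toList, ¬ p ∣ n) ↔ n.Coprime N := by
      constructor
      · intro hm
        by_contra hc
        obtain ⟨p, hp, hpm, hpN⟩ := Nat.Prime.not_coprime_iff_dvd.mp hc
        exact hm p (by simp [hp, hpN, NeZero.ne N]) hpm
      · intro hm q hq hqm
        have h1 := hl q hq
        exact Nat.not_coprime_of_dvd_of_dvd h1.1.one_lt hqm h1.2 hm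
    simp only [hiff]
  exact key N hprod

/-- the character modulo `3` -/
theorem chi_congr (ℓ : ℕ) : ((chiNegThree ℓ : ℤ) : ZMod 3) = ((ℓ : ℤ) : ZMod 3) := by
  have h : (ℓ : ℤ) ≡ chiNegThree ℓ [ZMOD 3] := by
    unfold chiNegThree
    rw [Int.ModEq]
    split_ifs <;> omega
  exact ((ZMod.intCast_eq_intCast_iff _ _ 3).mpr h).symm

theorem bridge_congr (a : ℕ → ℤ) (n : ℕ) :
    (3 : ℤ) ∣ a n - (bridgeProduct a).coeff n := by
  have h1 : (bridgeProduct a).coeff n =
      ∑ p ∈ Finset.HasAntidiagonal.antidiagonal n, a p.1 * (if p.2 = 0 then 1 else 6 * sigmaChi p.2) := by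
    rw [bridgeProduct, PowerSeries.coeff_mul]
    refine Finset.sum_congr rfl fun p _ => ?_
    rw [PowerSeries.coeff_mk, e1Chi3In, PowerSeries.coeff_map, e1Chi3, PowerSeries.coeff_mk]
    simp
  have h2 : a n = ∑ p ∈ Finset.HasAntidiagonal.antidiagonal n, a p.1 * (if p.2 = 0 then 1 else 0) := by
    rw [Finset.sum_eq_single (n, 0)]
    · simp
    · rintro ⟨i, j⟩ hij hne
      rw [Finset.HasAntidiagonal.mem_antidiagonal] at hij
      dsimp only at hij ⊢
      rw [if_neg, mul_zero]
      rintro rfl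
      exact hne (by rw [← hij, add_zero])
    · intro h
      exact absurd (by simp) h
  rw [h1]
  nth_rewrite 1 [h2]
  rw [← Finset.sum_sub_distrib]
  refine Finset.dvd_sum fun p _ => ?_
  rw [← mul_sub]
  refine Dvd.dvd.mul_left ?_ _
  split_ifs
  · simp
  · exact ⟨-2 * sigmaChi p.2, by ring⟩

theorem hasIntegralBasis (N : ℕ) [NeZero N] : CuspForm.HasIntegralBasis N := by
  have h := IntStr.hasIntegralStructure N 2
  rw [CuspForm.HasIntegralStructure, CuspForm.intLattice] at h
  rw [CuspForm.HasIntegralBasis, eq_top_iff, ← h, Submodule.span_le]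
  intro f hf
  have hle : Submodule.span ℤ {f : CuspForm (Gamma0 N) 2 |
      ∀ n : ℕ, ∃ m : ℤ, ModularFormClass.qCoeff f n = (m : ℂ)} ≤
      (Submodule.span ℂ (CuspForm.qIntegralSet N)).restrictScalars ℤ := by
    rw [Submodule.span_le]
    intro g hg
    refine Submodule.subset_span fun n => ?_
    obtain ⟨m, hm⟩ := hg n
    rw [hm]
    exact intCast_mem _ m
  exact hle hf

/-- **S46 from the modularity of exact conductor level** -/
theorem main (W : WeierstrassCurve ℤ) (h : Mlc1IsModularModelOfExactConductorLevel W) :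
    ∃ (N : ℕ) (_ : NeZero N) (a : ℕ → ℤ),
        CuspForm.HasIntegralBasis N ∧
        FormalHecke.IsEigensystem
          (fun ℓ => if ℓ ∣ N then 0 else ((chiNegThree ℓ : ℤ) : ℤ)) a ∧
        CuspForm.IsLatticeRealized N a ∧
        (∀ q : ℕ, q.Prime → q ≠ 3 → ¬ q ^ 3 ∣ N) ∧
        ∀ ℓ : ℕ, ℓ.Prime → W.IsGoodPrimeFor ℓ → ¬ ℓ ∣ N → ℓ ≠ 3 →
          (3 : ℤ) ∣ (a ℓ - W.apOfModel ℓ) := by
  classical
  obtain ⟨N, hN, hsq, hsupp, f, hf, hfW⟩ := h
  have hN0 : NeZero N := ⟨hN.ne'⟩
  have hNN : NeZero (N * N) := ⟨(Nat.mul_pos hN hN).ne'⟩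
  obtain ⟨g, hg⟩ := exists_dep hsq f
  have hdvd : ∀ p : ℕ, p.Prime → (p ∣ N * N ↔ p ∣ N) := fun p hp => by
    rw [hp.dvd_mul, or_self]
  -- the prime values
  set t : ℕ → ℤ := fun p => if p ∣ N then 0 else W.apOfModel p with ht
  set e : ℕ → ℤ := fun ℓ => if ℓ ∣ N * N then 0 else ((chiNegThree ℓ : ℤ) : ℤ) with he
  set e' : ℕ → ℤ := fun ℓ => if ℓ ∣ N * N then 0 else (ℓ : ℤ) with he'
  -- the coefficients of `g`
  have hgA : ∀ n, qCoeff g n = ((A e' t n : ℤ) : ℂ) := by
    intro n
    have hφ := map_A (Int.castRingHom ℂ) e' t n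
    rw [eq_intCast] at hφ
    rw [hφ]
    refine eq_A ?_ ?_ ?_ ?_ ?_ n
    · exact H22.cusp_qCoeff_zero g
    · rw [hg, if_pos (Nat.coprime_one_left N), hf.qCoeff_one]
    · intro m n hmn
      rw [hg, hg, hg]
      by_cases hm : m.Coprime N
      · by_cases hn : n.Coprime N
        · rw [if_pos (Nat.Coprime.mul_left hm hn), if_pos hm, if_pos hn,
            hf.qCoeff_mul_of_coprime m n hmn]
        · rw [if_neg hn, if_neg (fun h => hn (Nat.Coprime.coprime_mul_left h)), mul_zero]
      · rw [if_neg hm, if_neg (fun h => hm (Nat.Coprime.coprime_mul_right h)), zero_mul]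
    · intro p hp
      rw [hg]
      by_cases hpN : p ∣ N
      · rw [if_neg (fun h => (Nat.Prime.coprime_iff_not_dvd hp).mp h hpN), ht]
        simp [hpN]
      · rw [if_pos ((Nat.Prime.coprime_iff_not_dvd hp).mpr hpN),
          hfW p hp (fun h => hpN ((hsupp p hp).mpr h)) hpN, ht]
        simp [hpN]
    · intro p r hp
      rw [hg, hg, hg, hg]
      by_cases hpN : p ∣ N
      · have hnc : ∀ k, ¬ (p ^ (k + 1)).Coprime N := fun k h =>
          (Nat.Prime.coprime_iff_not_dvd hp).mp
            (Nat.Coprime.coprime_dvd_left (dvd_pow_self p (Nat.succ_ne_zero k)) h) hpN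
        have hnc1 : ¬ p.Coprime N := fun h => (Nat.Prime.coprime_iff_not_dvd hp).mp h hpN
        rw [if_neg (hnc (r + 1)), if_neg hnc1, he']
        simp [(hdvd p hp).mpr hpN]
      · have hc : p.Coprime N := (Nat.Prime.coprime_iff_not_dvd hp).mpr hpN
        rw [if_pos (Nat.Coprime.pow_left _ hc), if_pos hc, if_pos (Nat.Coprime.pow_left _ hc),
          if_pos (Nat.Coprime.pow_left _ hc), hf.qCoeff_prime_pow_of_not_dvd p r hp hpN, he']
        simp [(hdvd p hp).not.mpr hpN]
  refine ⟨N * N, hNN, A e t, hasIntegralBasis _, A_isEigensystem e t, ?_, ?_, ?_⟩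
  · refine ⟨g, fun n => ?_, A e' t, fun n => (hgA n).symm, fun n => ?_⟩
    · rw [hgA n]
      exact intCast_mem _ _
    · have h1 : (3 : ℤ) ∣ A e' t n - A e t n := by
        refine (ZMod.intCast_zmod_eq_zero_iff_dvd _ 3).mp ?_
        have h2 := map_A (Int.castRingHom (ZMod 3)) e' t n
        have h3 := map_A (Int.castRingHom (ZMod 3)) e t n
        rw [eq_intCast] at h2 h3
        rw [Int.cast_sub, h2, h3, sub_eq_zero]
        refine A_congr (fun p _ => ⟨?_, rfl⟩) n
        rw [he, he', eq_intCast, eq_intCast]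
        dsimp only
        split_ifs
        · rfl
        · exact (chi_congr p).symm
      have h4 := bridge_congr (A e t) n
      have h5 : A e' t n - (bridgeProduct (A e t)).coeff n =
          (A e' t n - A e t n) + (A e t n - (bridgeProduct (A e t)).coeff n) := by ring
      rw [h5]
      exact dvd_add h1 h4
  · intro q hq _ h3
    have h1 : ¬ q * q ∣ N := fun h => by
      have := hsq q h
      exact hq.one_lt.ne' (Nat.isUnit_iff.mp this)
    -- `N = q ^ a m`, `a ≤ 1`
    by_cases hqN : q ∣ N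
    · obtain ⟨m, hm⟩ := hqN
      have hqm : ¬ q ∣ m := fun h => h1 (by rw [hm]; exact Nat.mul_dvd_mul_left q h)
      have h2 : q ^ 3 ∣ q ^ 2 * (m * m) := by
        have : N * N = q ^ 2 * (m * m) := by rw [hm]; ring
        rwa [← this]
      have h4 : q ∣ m * m := by
        rw [pow_succ] at h2
        exact Nat.dvd_of_mul_dvd_mul_left (pow_pos hq.pos 2) h2
      rcases hq.dvd_mul.mp h4 with h | h <;> exact hqm h
    · have h2 : q ∣ N * N := (dvd_pow_self q (by norm_num)).trans h3
      exact hqN ((hdvd q hq).mp h2)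
  · intro ℓ hℓ _ hℓN _
    rw [A_prime hℓ, ht]
    dsimp only
    rw [if_neg ((hdvd ℓ hℓ).not.mp hℓN), sub_self]
    exact dvd_zero _

end Fermat.Agent.H23.LT
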